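import Fermat.Agent.H13.Cft.Interfaces
import Fermat.Agent.H87.Cft.LvlSes
import Fermat.Agent.H19.Cft.HomologyApi

/-!
# P-CFT frame, row FR-DELTA (helper99): long exact sequences of level cohomology

For a short exact sequence `0 ⟶ X₁ ⟶ X₂ ⟶ X₃ ⟶ 0` of representations with `X₂` smooth:

* `lvlDelta 𝒰 hX hsm n : Hⁿ(𝒰, X₃) ⟶ Hⁿ⁺¹(𝒰, X₁)`, the connecting map, with the cocycle formula
  `lvlDelta_lvlHMk`;
* exactness of the long sequence at all spots, as `Function.Exact` statements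
  (`lvlH_exact₁`, `lvlH_exact₂`, `lvlH_exact₃`), and injectivity of `H⁰(f)`;
* naturality in `X` (`lvlDelta_naturality`) and in `(G, 𝒰)` (`lvlDelta_res`).
-/

set_option autoImplicit false

universe u

open CategoryTheory ShortComplex

namespace Fermat.Agent.H99.Cft

open Fermat.Agent.H13.Cft Fermat.Agent.H19

noncomputable section

variable {k G : Type u} [CommRing k] [Group G] (𝒰 : LevelSys G)
  {X : ShortComplex (Rep.{u} k G)}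

/-- The short exact sequence of level complexes. -/
theorem lvlShortExact (hX : X.ShortExact) (hsm : IsSmooth 𝒰 X.X₂) :
    (X.map (lvlFunctor 𝒰)).ShortExact :=
  Fermat.Agent.H87.Cft.lvlSes 𝒰 X hX hsm

/-- The map `Hⁿ(𝒰, A) ⟶ Hⁿ(𝒰, B)` induced by a morphism of representations. -/
abbrev lvlHMap {A B : Rep.{u} k G} (φ : A ⟶ B) (n : ℕ) : lvlH 𝒰 A n ⟶ lvlH 𝒰 B n :=
  HomologicalComplex.homologyMap (lvlMap 𝒰 φ) n

/-- The connecting homomorphism `Hⁿ(𝒰, X₃) ⟶ Hⁿ⁺¹(𝒰, X₁)`. -/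
def lvlDelta (hX : X.ShortExact) (hsm : IsSmooth 𝒰 X.X₂) (n : ℕ) :
    lvlH 𝒰 X.X₃ n ⟶ lvlH 𝒰 X.X₁ (n + 1) :=
  (lvlShortExact 𝒰 hX hsm).δ n (n + 1) rfl

/-- If `f ∘ a = d b` then `a` is a cocycle. -/
theorem lvlD_eq_zero_of_lift (hX : X.ShortExact) (n : ℕ) (b : lvlCochains 𝒰 X.X₂ n)
    (a : lvlCochains 𝒰 X.X₁ (n + 1))
    (ha : ((lvlMap 𝒰 X.f).f (n + 1)).hom a = lvlD 𝒰 X.X₂ n b) :
    lvlD 𝒰 X.X₁ (n + 1) a = 0 := by
  have hinj : Function.Injective ((lvlMap 𝒰 X.f).f (n + 2)).hom := by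
    have := hX.mono_f
    exact Fermat.Agent.H87.Cft.lvlMap_f_injective 𝒰 X.f ((Rep.mono_iff_injective X.f).mp this) _
  apply hinj
  rw [map_zero]
  have h1 : ((lvlMap 𝒰 X.f).f (n + 2)).hom (lvlD 𝒰 X.X₁ (n + 1) a)
      = lvlD 𝒰 X.X₂ (n + 1) (((lvlMap 𝒰 X.f).f (n + 1)).hom a) := by
    have := hapi_comp_apply _ _ _ ((lvlMap 𝒰 X.f).comm (n + 1) (n + 2)) a
    rw [← lvlComplex_d_hom_apply, ← lvlComplex_d_hom_apply]
    exact this.symm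
  rw [h1, ha]
  exact LinearMap.congr_fun (lvlD_comp_lvlD 𝒰 X.X₂ n) b


/-- **Cocycle formula for the connecting map.**  If `c` is a level `n`-cocycle of `X₃`, `b` a
level `n`-cochain of `X₂` lifting `c`, and `a` the level `(n+1)`-cochain of `X₁` with
`f ∘ a = d b`, then `lvlDelta [c] = [a]`. -/
theorem lvlDelta_lvlHMk (hX : X.ShortExact) (hsm : IsSmooth 𝒰 X.X₂) (n : ℕ)
    (c : lvlCochains 𝒰 X.X₃ n) (hc : lvlD 𝒰 X.X₃ n c = 0)
    (b : lvlCochains 𝒰 X.X₂ n) (hb : ((lvlMap 𝒰 X.g).f n).hom b = c)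
    (a : lvlCochains 𝒰 X.X₁ (n + 1))
    (ha : ((lvlMap 𝒰 X.f).f (n + 1)).hom a = lvlD 𝒰 X.X₂ n b) :
    (lvlDelta 𝒰 hX hsm n).hom (lvlHMk 𝒰 X.X₃ n c hc)
      = lvlHMk 𝒰 X.X₁ (n + 1) a (lvlD_eq_zero_of_lift 𝒰 hX n b a ha) := by
  have hc' : ((lvlComplex 𝒰 X.X₃).d n (n + 1)).hom c = 0 :=
    (lvlComplex_d_hom_apply 𝒰 X.X₃ n c).trans hc
  have ha' : ((lvlMap 𝒰 X.f).f (n + 1)).hom a = ((lvlComplex 𝒰 X.X₂).d n (n + 1)).hom b :=
    ha.trans (lvlComplex_d_hom_apply 𝒰 X.X₂ n b).symm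
  exact (lvlShortExact 𝒰 hX hsm).δ_apply n (n + 1) rfl c hc' b hb a ha' (n + 2) (by simp)


/-! ### Exactness of the long sequence -/

/-- Exactness of `Hⁿ(X₁) ⟶ Hⁿ(X₂) ⟶ Hⁿ(X₃)`. -/
theorem lvlH_exact₂ (hX : X.ShortExact) (hsm : IsSmooth 𝒰 X.X₂) (n : ℕ) :
    Function.Exact (lvlHMap 𝒰 X.f n).hom (lvlHMap 𝒰 X.g n).hom := by
  have h := (lvlShortExact 𝒰 hX hsm).homology_exact₂ n
  exact (ShortComplex.ShortExact.moduleCat_exact_iff_function_exact _).mp h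

/-- Exactness of `Hⁿ(X₂) ⟶ Hⁿ(X₃) ⟶ Hⁿ⁺¹(X₁)`. -/
theorem lvlH_exact₃ (hX : X.ShortExact) (hsm : IsSmooth 𝒰 X.X₂) (n : ℕ) :
    Function.Exact (lvlHMap 𝒰 X.g n).hom (lvlDelta 𝒰 hX hsm n).hom := by
  have h := (lvlShortExact 𝒰 hX hsm).homology_exact₃ n (n + 1) rfl
  exact (ShortComplex.ShortExact.moduleCat_exact_iff_function_exact _).mp h

/-- Exactness of `Hⁿ(X₃) ⟶ Hⁿ⁺¹(X₁) ⟶ Hⁿ⁺¹(X₂)`. -/
theorem lvlH_exact₁ (hX : X.ShortExact) (hsm : IsSmooth 𝒰 X.X₂) (n : ℕ) :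
    Function.Exact (lvlDelta 𝒰 hX hsm n).hom (lvlHMap 𝒰 X.f (n + 1)).hom := by
  have h := (lvlShortExact 𝒰 hX hsm).homology_exact₁ n (n + 1) rfl
  exact (ShortComplex.ShortExact.moduleCat_exact_iff_function_exact _).mp h

/-- `δ ∘ Hⁿ(g) = 0`. -/
theorem lvlDelta_comp_g (hX : X.ShortExact) (hsm : IsSmooth 𝒰 X.X₂) (n : ℕ)
    (z : lvlH 𝒰 X.X₂ n) : (lvlDelta 𝒰 hX hsm n).hom ((lvlHMap 𝒰 X.g n).hom z) = 0 :=
  (lvlH_exact₃ 𝒰 hX hsm n).apply_apply_eq_zero z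

/-- `Hⁿ⁺¹(f) ∘ δ = 0`. -/
theorem lvlHMap_f_comp_delta (hX : X.ShortExact) (hsm : IsSmooth 𝒰 X.X₂) (n : ℕ)
    (z : lvlH 𝒰 X.X₃ n) : (lvlHMap 𝒰 X.f (n + 1)).hom ((lvlDelta 𝒰 hX hsm n).hom z) = 0 :=
  (lvlH_exact₁ 𝒰 hX hsm n).apply_apply_eq_zero z

/-- `H⁰(f)` is injective. -/
theorem lvlH_zero_injective (hX : X.ShortExact) :
    Function.Injective (lvlHMap 𝒰 X.f 0).hom := by
  have hinj : Function.Injective ((lvlMap 𝒰 X.f).f 0).hom := by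
    have := hX.mono_f
    exact Fermat.Agent.H87.Cft.lvlMap_f_injective 𝒰 X.f ((Rep.mono_iff_injective X.f).mp this) _
  rw [injective_iff_map_eq_zero]
  intro z hz
  obtain ⟨x, hx, rfl⟩ := lvlHMk_surjective 𝒰 X.X₁ 0 z
  rw [lvlHMk_lvlMap, lvlHMk_zero_eq_zero_iff] at hz
  have hx0 : x = 0 := hinj (hz.trans (map_zero _).symm)
  subst hx0
  exact lvlHMk_zero 𝒰 X.X₁ 0 hx


/-! ### Naturality in the short exact sequence -/

/-- Naturality of the connecting map in the short exact sequence. -/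
theorem lvlDelta_naturality {Y : ShortComplex (Rep.{u} k G)} (hX : X.ShortExact)
    (hsmX : IsSmooth 𝒰 X.X₂) (hY : Y.ShortExact) (hsmY : IsSmooth 𝒰 Y.X₂) (F : X ⟶ Y) (n : ℕ) :
    lvlDelta 𝒰 hX hsmX n ≫ lvlHMap 𝒰 F.τ₁ (n + 1)
      = lvlHMap 𝒰 F.τ₃ n ≫ lvlDelta 𝒰 hY hsmY n :=
  HomologicalComplex.HomologySequence.δ_naturality ((lvlFunctor 𝒰).mapShortComplex.map F)
    (lvlShortExact 𝒰 hX hsmX) (lvlShortExact 𝒰 hY hsmY) n (n + 1) rfl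

/-- Naturality of the connecting map, elementwise. -/
theorem lvlDelta_naturality_apply {Y : ShortComplex (Rep.{u} k G)} (hX : X.ShortExact)
    (hsmX : IsSmooth 𝒰 X.X₂) (hY : Y.ShortExact) (hsmY : IsSmooth 𝒰 Y.X₂) (F : X ⟶ Y) (n : ℕ)
    (z : lvlH 𝒰 X.X₃ n) :
    (lvlHMap 𝒰 F.τ₁ (n + 1)).hom ((lvlDelta 𝒰 hX hsmX n).hom z)
      = (lvlDelta 𝒰 hY hsmY n).hom ((lvlHMap 𝒰 F.τ₃ n).hom z) := by
  have h := lvlDelta_naturality 𝒰 hX hsmX hY hsmY F n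
  have h1 := hapi_comp_apply _ _ _ h z
  have h2 := hapi_comp_apply (lvlHMap 𝒰 F.τ₃ n) (lvlDelta 𝒰 hY hsmY n) _ rfl z
  exact h1.trans h2.symm

/-! ### Naturality in the group -/

section res

variable {H : Type u} [Group H] {𝒱 : LevelSys G} {𝒲 : LevelSys H} (f : G →* H)
  (hf : 𝒱.Compat 𝒲 f)

/-- Restrictions of smooth representations along compatible homomorphisms are smooth. -/
theorem isSmooth_res {M : Rep.{u} k H} (hM : IsSmooth 𝒲 M) (hf : 𝒱.Compat 𝒲 f) :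
    IsSmooth 𝒱 (Rep.res f M) := by
  intro m
  obtain ⟨N, hN, hfix⟩ := hM m
  obtain ⟨N', hN', hle⟩ := hf N hN
  exact ⟨N', hN', fun s hs => hfix (f s) (hle hs)⟩

/-- `lvlRes` is natural in the coefficients. -/
theorem lvlMap_comp_lvlRes {A B : Rep.{u} k H} (φ : A ⟶ B) :
    lvlMap 𝒲 φ ≫ lvlRes f hf B = lvlRes f hf A ≫ lvlMap 𝒱 ((Rep.resFunctor f).map φ) := by
  ext n x : 3
  rfl

/-- The morphism of short complexes of level complexes given by restriction. -/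
def lvlResSC (Z : ShortComplex (Rep.{u} k H)) :
    Z.map (lvlFunctor 𝒲) ⟶ (Z.map (Rep.resFunctor f)).map (lvlFunctor 𝒱) where
  τ₁ := lvlRes f hf Z.X₁
  τ₂ := lvlRes f hf Z.X₂
  τ₃ := lvlRes f hf Z.X₃
  comm₁₂ := lvlMap_comp_lvlRes f hf Z.f
  comm₂₃ := lvlMap_comp_lvlRes f hf Z.g

/-- Naturality of the connecting map under restriction along a compatible homomorphism. -/
theorem lvlDelta_res {Z : ShortComplex (Rep.{u} k H)} (hZ : Z.ShortExact)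
    (hsm : IsSmooth 𝒲 Z.X₂) (n : ℕ) :
    lvlDelta 𝒲 hZ hsm n ≫ HomologicalComplex.homologyMap (lvlRes f hf Z.X₁) (n + 1)
      = HomologicalComplex.homologyMap (lvlRes f hf Z.X₃) n ≫
          lvlDelta 𝒱 ((Rep.shortExact_res f).mpr hZ) (isSmooth_res f hsm hf) n :=
  HomologicalComplex.HomologySequence.δ_naturality (lvlResSC f hf Z)
    (lvlShortExact 𝒲 hZ hsm)
    (lvlShortExact 𝒱 ((Rep.shortExact_res f).mpr hZ) (isSmooth_res f hsm hf)) n (n + 1) rfl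

/-- Naturality of the connecting map under restriction, elementwise. -/
theorem lvlDelta_res_apply {Z : ShortComplex (Rep.{u} k H)} (hZ : Z.ShortExact)
    (hsm : IsSmooth 𝒲 Z.X₂) (n : ℕ) (z : lvlH 𝒲 Z.X₃ n) :
    (HomologicalComplex.homologyMap (lvlRes f hf Z.X₁) (n + 1)).hom
        ((lvlDelta 𝒲 hZ hsm n).hom z)
      = (lvlDelta 𝒱 ((Rep.shortExact_res f).mpr hZ) (isSmooth_res f hsm hf) n).hom
          ((HomologicalComplex.homologyMap (lvlRes f hf Z.X₃) n).hom z) := by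
  have h := lvlDelta_res f hf hZ hsm n
  have h1 := hapi_comp_apply _ _ _ h z
  have h2 := hapi_comp_apply (HomologicalComplex.homologyMap (lvlRes f hf Z.X₃) n)
    (lvlDelta 𝒱 ((Rep.shortExact_res f).mpr hZ) (isSmooth_res f hsm hf) n) _ rfl z
  exact h1.trans h2.symm

end res

end

end Fermat.Agent.H99.Cft
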