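import Fermat.Agent.H54.Cft.KummerInterfaces

/-!
# P-CFT / KD-1 : Hilbert 90 over an arbitrary intermediate field `L` of `ℚ̄`

`Fermat.Agent.H99.Cft.hilbert90L : Fermat.Agent.H54.Cft.Hilbert90LStatement`.

Proof (Poincaré series over the finite set of restrictions to `F`).  Let `F` be a finite
extension of `ℚ` such that `b` vanishes on `G_L ∩ G_F`, and let `E` be the (finite) set of
embeddings `F → ℚ̄` of the form `τ|_F`, `τ ∈ G_L`.  The value `b τ` only depends on `τ|_F`, which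
defines `c e := ζ ^ (-b τ)` for `e = τ|_F ∈ E`.  By Dedekind's independence of characters there is
`θ ∈ F` with `α := ∑_{e ∈ E} c e * e θ ≠ 0`, and `τ α = ζ ^ (b τ) * α` for `τ ∈ G_L` by
reindexing the sum (`τ` fixes `ζ ∈ L`).  No topology, no Galois correspondence.
-/

set_option autoImplicit false

namespace Fermat.Agent.H99.Cft

open Fermat.Agent.H54.Cft

/-- restriction of `σ ∈ G_ℚ` to an intermediate field `F`. -/
noncomputable def h90Res (F : IntermediateField ℚ Qbar) (σ : GQ) : F →ₐ[ℚ] Qbar :=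
  (σ : Qbar →ₐ[ℚ] Qbar).comp F.val

theorem h90Res_apply (F : IntermediateField ℚ Qbar) (σ : GQ) (x : F) :
    h90Res F σ x = σ (x : Qbar) := rfl

theorem h90Res_mul (F : IntermediateField ℚ Qbar) (σ τ : GQ) :
    h90Res F (σ * τ) = (σ : Qbar →ₐ[ℚ] Qbar).comp (h90Res F τ) := rfl

section powers

variable {p : ℕ} [Fact p.Prime] {ζ : Qbar}

theorem h90_pow_val_add (hζ : ζ ^ p = 1) (x y : ZMod p) :
    ζ ^ (x + y).val = ζ ^ x.val * ζ ^ y.val := by
  rw [ZMod.val_add, ← pow_eq_pow_mod _ hζ, pow_add]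

theorem h90_pow_val_ne_zero (hζ : ζ ^ p = 1) (x : ZMod p) : ζ ^ x.val ≠ 0 := by
  have hζ0 : ζ ≠ 0 := by
    rintro rfl
    have hp : p ≠ 0 := (Fact.out : p.Prime).ne_zero
    rw [zero_pow hp] at hζ
    exact zero_ne_one hζ
  exact pow_ne_zero _ hζ0

end powers

section main

variable {p : ℕ} [Fact p.Prime] {L : IntermediateField ℚ Qbar} {b : GQ → ZMod p}

theorem h90_b_one (hb : IsAddCharOn L b) : b 1 = 0 := by
  have h := hb 1 (one_mem _) 1 (one_mem _)
  rw [mul_one] at h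
  exact left_eq_add.mp h

/-- `b τ` only depends on the restriction of `τ ∈ G_L` to `F`. -/
theorem h90_b_congr (hb : IsAddCharOn L b) {F : IntermediateField ℚ Qbar}
    (hbF : ∀ s ∈ F.fixingSubgroup, s ∈ L.fixingSubgroup → b s = 0)
    {σ τ : GQ} (hσ : σ ∈ L.fixingSubgroup) (hτ : τ ∈ L.fixingSubgroup)
    (h : h90Res F σ = h90Res F τ) : b σ = b τ := by
  have hs : σ⁻¹ * τ ∈ L.fixingSubgroup := mul_mem (inv_mem hσ) hτ
  have hsF : σ⁻¹ * τ ∈ F.fixingSubgroup := by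
    rw [IntermediateField.mem_fixingSubgroup_iff]
    intro x hx
    have h1 : σ x = τ x := by
      have := DFunLike.congr_fun h ⟨x, hx⟩
      simpa [h90Res_apply] using this
    change σ⁻¹ (τ x) = x
    rw [← h1]
    change (σ⁻¹ * σ) x = x
    rw [inv_mul_cancel]
    rfl
  have h0 : b (σ⁻¹ * τ) = 0 := hbF _ hsF hs
  have h1 : b (σ * (σ⁻¹ * τ)) = b σ + b (σ⁻¹ * τ) := hb σ hσ _ hs
  rw [mul_inv_cancel_left, h0, add_zero] at h1
  exact h1.symm

end main

/-- **KD-1 (Hilbert 90 over `L`)**. -/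
theorem hilbert90L : Hilbert90LStatement := by
  classical
  intro p _ L ζ hζ hζL b hb hF
  obtain ⟨F, hFfin, hbF⟩ := hF
  have : FiniteDimensional ℚ F := hFfin
  have hζp : ζ ^ p = 1 := hζ.pow_eq_one
  -- the finite set of restrictions of elements of `G_L`
  have : Fintype (F →ₐ[ℚ] Qbar) := Fintype.ofFinite _
  let E : Finset (F →ₐ[ℚ] Qbar) :=
    Finset.univ.filter (fun e => ∃ τ ∈ L.fixingSubgroup, h90Res F τ = e)
  have hE : ∀ e, e ∈ E ↔ ∃ τ ∈ L.fixingSubgroup, h90Res F τ = e := by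
    intro e
    simp [E]
  -- a value of `b` on each embedding
  let β : (F →ₐ[ℚ] Qbar) → ZMod p := fun e =>
    if h : ∃ τ ∈ L.fixingSubgroup, h90Res F τ = e then b h.choose else 0
  have hβ : ∀ τ ∈ L.fixingSubgroup, β (h90Res F τ) = b τ := by
    intro τ hτ
    have h : ∃ τ' ∈ L.fixingSubgroup, h90Res F τ' = h90Res F τ := ⟨τ, hτ, rfl⟩
    simp only [β, dif_pos h]
    exact h90_b_congr hb hbF h.choose_spec.1 hτ h.choose_spec.2
  let c : (F →ₐ[ℚ] Qbar) → Qbar := fun e => ζ ^ (- β e).val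
  have hc : ∀ e, c e ≠ 0 := fun e => h90_pow_val_ne_zero hζp _
  -- Dedekind independence gives `θ` with nonzero resolvent
  have hne : (1 : GQ) ∈ L.fixingSubgroup := one_mem _
  have h1E : h90Res F 1 ∈ E := (hE _).2 ⟨1, hne, rfl⟩
  have hex : ∃ θ : F, ∑ e ∈ E, c e * e θ ≠ 0 := by
    by_contra hcon
    push Not at hcon
    have hli := linearIndependent_algHom_toLinearMap ℚ F Qbar
    rw [linearIndependent_iff'] at hli
    have hsum : ∑ e ∈ E, c e • (AlgHom.toLinearMap e : F →ₗ[ℚ] Qbar) = 0 := by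
      apply LinearMap.ext
      intro θ
      simp only [LinearMap.coe_sum, Finset.sum_apply, LinearMap.smul_apply,
        AlgHom.toLinearMap_apply, smul_eq_mul, LinearMap.zero_apply]
      exact hcon θ
    exact hc _ (hli E c hsum _ h1E)
  obtain ⟨θ, hθ⟩ := hex
  refine ⟨∑ e ∈ E, c e * e θ, hθ, ?_⟩
  intro τ hτ
  have hτζ : τ ζ = ζ := (IntermediateField.mem_fixingSubgroup_iff L τ).1 hτ ζ hζL
  -- `τ` permutes `E`
  have hmap : ∀ e ∈ E, (τ : Qbar →ₐ[ℚ] Qbar).comp e ∈ E := by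
    intro e he
    obtain ⟨σ, hσ, rfl⟩ := (hE e).1 he
    exact (hE _).2 ⟨τ * σ, mul_mem hτ hσ, rfl⟩
  have hβmap : ∀ e ∈ E, β ((τ : Qbar →ₐ[ℚ] Qbar).comp e) = b τ + β e := by
    intro e he
    obtain ⟨σ, hσ, rfl⟩ := (hE e).1 he
    rw [← h90Res_mul, hβ _ (mul_mem hτ hσ), hβ _ hσ, hb τ hτ σ hσ]
  have hcmap : ∀ e ∈ E, c e = ζ ^ (b τ).val * c ((τ : Qbar →ₐ[ℚ] Qbar).comp e) := by
    intro e he
    simp only [c]
    rw [hβmap e he, ← h90_pow_val_add hζp]
    congr 2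
    ring
  rw [map_sum, Finset.mul_sum]
  have hstep : ∀ e ∈ E, τ (c e * e θ) =
      ζ ^ (b τ).val * (c ((τ : Qbar →ₐ[ℚ] Qbar).comp e) *
        ((τ : Qbar →ₐ[ℚ] Qbar).comp e) θ) := by
    intro e he
    have h1 : τ (c e) = c e := by
      simp only [c]
      rw [map_pow, hτζ]
    rw [map_mul, h1, hcmap e he, mul_assoc]
    rfl
  rw [Finset.sum_congr rfl hstep]
  -- reindex along the bijection `e ↦ τ ∘ e` of `E`
  refine Finset.sum_bij (fun e _ => (τ : Qbar →ₐ[ℚ] Qbar).comp e) hmap ?_ ?_ ?_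
  · intro e₁ _ e₂ _ h
    apply AlgHom.ext
    intro x
    have := DFunLike.congr_fun h x
    exact τ.injective this
  · intro e he
    obtain ⟨σ, hσ, rfl⟩ := (hE e).1 he
    refine ⟨h90Res F (τ⁻¹ * σ), (hE _).2 ⟨τ⁻¹ * σ, mul_mem (inv_mem hτ) hσ, rfl⟩, ?_⟩
    rw [← h90Res_mul, mul_inv_cancel_left]
  · intro e _
    rfl

end Fermat.Agent.H99.Cft
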