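import Fermat.Agent.H99.Cft.LvlDelta
import Fermat.Agent.H53.Cft.FrNatExact
import Fermat.Agent.H34.Cft.ConeNat

/-!
# P-CFT frame, row FR-DELTA (helper99), part 4: long exact sequences, generic and compact support

* generic package for a short exact sequence `S` of cochain complexes of modules:
  `cxDelta hS n`, cocycle formula `cxDelta_hMk`, exactness `cx_exact₁/₂/₃` as `Function.Exact`,
  naturality `cxDelta_naturality`, injectivity of `H⁰(f)`;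
* the compact-support version for `0 ⟶ X₁ ⟶ X₂ ⟶ X₃ ⟶ 0` with `X₂` smooth:
  `ccDelta 𝔄 hX hsm n : H_cⁿ(X₃) ⟶ H_cⁿ⁺¹(X₁)`, `ccDelta_hMk`, `ccH_exact₁/₂/₃`,
  `ccDelta_naturality`, `ccH_zero_injective`;
* compatibility of `ccDelta` with `lvlDelta` along the projection `conePi`.
-/

set_option autoImplicit false

universe u

open CategoryTheory ShortComplex

namespace Fermat.Agent.H99.Cft

open Fermat.Agent.H13.Cft Fermat.Agent.H19

noncomputable section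

/-! ### Generic short exact sequences of complexes -/

section generic

variable {k : Type u} [CommRing k] {S : ShortComplex (CochainComplex (ModuleCat.{u} k) ℕ)}

/-- The connecting homomorphism of a short exact sequence of cochain complexes. -/
def cxDelta (hS : S.ShortExact) (n : ℕ) : S.X₃.homology n ⟶ S.X₁.homology (n + 1) :=
  hS.δ n (n + 1) rfl

/-- Degreewise injectivity of the first map of a short exact sequence of complexes. -/
theorem cx_f_injective (hS : S.ShortExact) (n : ℕ) : Function.Injective (S.f.f n).hom :=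
  ((HomologicalComplex.shortExact_iff_degreewise_shortExact S).mp hS n).moduleCat_injective_f

/-- Degreewise surjectivity of the second map of a short exact sequence of complexes. -/
theorem cx_g_surjective (hS : S.ShortExact) (n : ℕ) : Function.Surjective (S.g.f n).hom :=
  ((HomologicalComplex.shortExact_iff_degreewise_shortExact S).mp hS n).moduleCat_surjective_g

/-- Degreewise exactness in the middle of a short exact sequence of complexes. -/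
theorem cx_exact_middle (hS : S.ShortExact) (n : ℕ) (b : S.X₂.X n)
    (hb : (S.g.f n).hom b = 0) : ∃ a : S.X₁.X n, (S.f.f n).hom a = b :=
  (ShortComplex.moduleCat_exact_iff _).mp
    ((HomologicalComplex.shortExact_iff_degreewise_shortExact S).mp hS n).exact b hb

/-- If `f a = d b` then `a` is a cocycle. -/
theorem cx_d_eq_zero_of_lift (hS : S.ShortExact) (n : ℕ) (b : S.X₂.X n) (a : S.X₁.X (n + 1))
    (ha : (S.f.f (n + 1)).hom a = (S.X₂.d n (n + 1)).hom b) :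
    (S.X₁.d (n + 1) (n + 2)).hom a = 0 := by
  apply cx_f_injective hS (n + 2)
  rw [map_zero]
  have h1 : (S.f.f (n + 2)).hom ((S.X₁.d (n + 1) (n + 2)).hom a)
      = (S.X₂.d (n + 1) (n + 2)).hom ((S.f.f (n + 1)).hom a) :=
    (hapi_comp_apply _ _ _ (S.f.comm (n + 1) (n + 2)) a).symm.trans
      (hapi_comp_apply (S.f.f (n + 1)) (S.X₂.d (n + 1) (n + 2)) _ rfl a)
  rw [h1, ha]
  exact hapi_d_d S.X₂ n b

/-- **Cocycle formula for the connecting map** of a short exact sequence of complexes. -/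
theorem cxDelta_hMk (hS : S.ShortExact) (n : ℕ) (c : S.X₃.X n)
    (hc : (S.X₃.d n (n + 1)).hom c = 0) (b : S.X₂.X n) (hb : (S.g.f n).hom b = c)
    (a : S.X₁.X (n + 1)) (ha : (S.f.f (n + 1)).hom a = (S.X₂.d n (n + 1)).hom b) :
    (cxDelta hS n).hom (hMk S.X₃ n c hc)
      = hMk S.X₁ (n + 1) a (cx_d_eq_zero_of_lift hS n b a ha) :=
  hS.δ_apply n (n + 1) rfl c hc b hb a ha (n + 2) (by simp)

/-- Existence form of the cocycle formula: every class has such a presentation. -/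
theorem cxDelta_exists_lift (hS : S.ShortExact) (n : ℕ) (c : S.X₃.X n) :
    ∃ (b : S.X₂.X n) (_ : (S.g.f n).hom b = c), (S.X₃.d n (n + 1)).hom c = 0 →
      ∃ a : S.X₁.X (n + 1), (S.f.f (n + 1)).hom a = (S.X₂.d n (n + 1)).hom b := by
  obtain ⟨b, hb⟩ := cx_g_surjective hS n c
  refine ⟨b, hb, fun hc => ?_⟩
  apply cx_exact_middle hS (n + 1)
  have h1 : (S.g.f (n + 1)).hom ((S.X₂.d n (n + 1)).hom b)
      = (S.X₃.d n (n + 1)).hom ((S.g.f n).hom b) :=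
    (hapi_comp_apply (S.X₂.d n (n + 1)) (S.g.f (n + 1)) _ rfl b).trans
      (hapi_comp_apply (S.g.f n) (S.X₃.d n (n + 1)) _ (S.g.comm n (n + 1)) b).symm
  rw [h1, hb, hc]

/-- Exactness of `Hⁿ(X₁) ⟶ Hⁿ(X₂) ⟶ Hⁿ(X₃)`. -/
theorem cx_exact₂ (hS : S.ShortExact) (n : ℕ) :
    Function.Exact (HomologicalComplex.homologyMap S.f n).hom
      (HomologicalComplex.homologyMap S.g n).hom :=
  (ShortComplex.ShortExact.moduleCat_exact_iff_function_exact _).mp (hS.homology_exact₂ n)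

/-- Exactness of `Hⁿ(X₂) ⟶ Hⁿ(X₃) ⟶ Hⁿ⁺¹(X₁)`. -/
theorem cx_exact₃ (hS : S.ShortExact) (n : ℕ) :
    Function.Exact (HomologicalComplex.homologyMap S.g n).hom (cxDelta hS n).hom :=
  (ShortComplex.ShortExact.moduleCat_exact_iff_function_exact _).mp
    (hS.homology_exact₃ n (n + 1) rfl)

/-- Exactness of `Hⁿ(X₃) ⟶ Hⁿ⁺¹(X₁) ⟶ Hⁿ⁺¹(X₂)`. -/
theorem cx_exact₁ (hS : S.ShortExact) (n : ℕ) :
    Function.Exact (cxDelta hS n).hom (HomologicalComplex.homologyMap S.f (n + 1)).hom :=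
  (ShortComplex.ShortExact.moduleCat_exact_iff_function_exact _).mp
    (hS.homology_exact₁ n (n + 1) rfl)

/-- `H⁰(f)` is injective. -/
theorem cx_zero_injective (hS : S.ShortExact) :
    Function.Injective (HomologicalComplex.homologyMap S.f 0).hom := by
  rw [injective_iff_map_eq_zero]
  intro z hz
  obtain ⟨x, hx, rfl⟩ := hapi_hMk_surjective S.X₁ 0 z
  have hfx : (S.X₂.d 0 1).hom ((S.f.f 0).hom x) = 0 := by
    have h1 : (S.X₂.d 0 1).hom ((S.f.f 0).hom x) = (S.f.f 1).hom ((S.X₁.d 0 1).hom x) :=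
      (hapi_comp_apply (S.f.f 0) (S.X₂.d 0 1) _ (S.f.comm 0 1) x).trans
        (hapi_comp_apply (S.X₁.d 0 1) (S.f.f 1) _ rfl x).symm
    rw [h1, hx, map_zero]
  rw [hapi_homologyMap_hMk S.X₁ 0 S.X₂ S.f x hx hfx, hapi_hMk_zero_eq_zero_iff] at hz
  have hx0 : x = 0 := cx_f_injective hS 0 (hz.trans (map_zero _).symm)
  subst hx0
  exact hapi_hMk_zero S.X₁ 0 hx

/-- Naturality of the connecting map. -/
theorem cxDelta_naturality {T : ShortComplex (CochainComplex (ModuleCat.{u} k) ℕ)}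
    (hS : S.ShortExact) (hT : T.ShortExact) (F : S ⟶ T) (n : ℕ) :
    cxDelta hS n ≫ HomologicalComplex.homologyMap F.τ₁ (n + 1)
      = HomologicalComplex.homologyMap F.τ₃ n ≫ cxDelta hT n :=
  HomologicalComplex.HomologySequence.δ_naturality F hS hT n (n + 1) rfl

/-- Naturality of the connecting map, elementwise. -/
theorem cxDelta_naturality_apply {T : ShortComplex (CochainComplex (ModuleCat.{u} k) ℕ)}
    (hS : S.ShortExact) (hT : T.ShortExact) (F : S ⟶ T) (n : ℕ) (z : S.X₃.homology n) :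
    (HomologicalComplex.homologyMap F.τ₁ (n + 1)).hom ((cxDelta hS n).hom z)
      = (cxDelta hT n).hom ((HomologicalComplex.homologyMap F.τ₃ n).hom z) := by
  have h := cxDelta_naturality hS hT F n
  have h1 := hapi_comp_apply _ _ _ h z
  have h2 := hapi_comp_apply (HomologicalComplex.homologyMap F.τ₃ n) (cxDelta hT n) _ rfl z
  exact h1.trans h2.symm

end generic

/-! ### Compact support -/

section cc

variable {k G : Type u} [CommRing k] [Group G] (𝔄 : ArithDatum k G)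
  {X : ShortComplex (Rep.{u} k G)}

/-- The short exact sequence of compact-support complexes. -/
theorem ccShortExact (hX : X.ShortExact) (hsm : IsSmooth 𝔄.lvl X.X₂) :
    (X.map (Fermat.Agent.H53.ccFunctor 𝔄)).ShortExact :=
  Fermat.Agent.H53.ccFunctor_shortExact 𝔄 Fermat.Agent.H87.Cft.lvlSes X hX hsm

/-- The map `H_cⁿ(A) ⟶ H_cⁿ(B)` induced by a morphism of representations. -/
abbrev ccHMap {A B : Rep.{u} k G} (φ : A ⟶ B) (n : ℕ) : ccH 𝔄 A n ⟶ ccH 𝔄 B n :=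
  HomologicalComplex.homologyMap (Fermat.Agent.H53.ccMap 𝔄 φ) n

/-- The connecting homomorphism `H_cⁿ(X₃) ⟶ H_cⁿ⁺¹(X₁)`. -/
def ccDelta (hX : X.ShortExact) (hsm : IsSmooth 𝔄.lvl X.X₂) (n : ℕ) :
    ccH 𝔄 X.X₃ n ⟶ ccH 𝔄 X.X₁ (n + 1) :=
  cxDelta (ccShortExact 𝔄 hX hsm) n

/-- If `f ∘ a = d b` in the compact-support complexes then `a` is a cocycle. -/
theorem ccD_eq_zero_of_lift (hX : X.ShortExact) (hsm : IsSmooth 𝔄.lvl X.X₂) (n : ℕ)
    (b : (ccComplex 𝔄 X.X₂).X n) (a : (ccComplex 𝔄 X.X₁).X (n + 1))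
    (ha : ((Fermat.Agent.H53.ccMap 𝔄 X.f).f (n + 1)).hom a
      = ((ccComplex 𝔄 X.X₂).d n (n + 1)).hom b) :
    ((ccComplex 𝔄 X.X₁).d (n + 1) (n + 2)).hom a = 0 :=
  cx_d_eq_zero_of_lift (ccShortExact 𝔄 hX hsm) n b a ha

/-- **Cocycle formula for the compact-support connecting map.** -/
theorem ccDelta_hMk (hX : X.ShortExact) (hsm : IsSmooth 𝔄.lvl X.X₂) (n : ℕ)
    (c : (ccComplex 𝔄 X.X₃).X n) (hc : ((ccComplex 𝔄 X.X₃).d n (n + 1)).hom c = 0)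
    (b : (ccComplex 𝔄 X.X₂).X n) (hb : ((Fermat.Agent.H53.ccMap 𝔄 X.g).f n).hom b = c)
    (a : (ccComplex 𝔄 X.X₁).X (n + 1))
    (ha : ((Fermat.Agent.H53.ccMap 𝔄 X.f).f (n + 1)).hom a
      = ((ccComplex 𝔄 X.X₂).d n (n + 1)).hom b) :
    (ccDelta 𝔄 hX hsm n).hom (hMk (ccComplex 𝔄 X.X₃) n c hc)
      = hMk (ccComplex 𝔄 X.X₁) (n + 1) a (ccD_eq_zero_of_lift 𝔄 hX hsm n b a ha) :=
  cxDelta_hMk (ccShortExact 𝔄 hX hsm) n c hc b hb a ha

/-- Exactness of `H_cⁿ(X₁) ⟶ H_cⁿ(X₂) ⟶ H_cⁿ(X₃)`. -/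
theorem ccH_exact₂ (hX : X.ShortExact) (hsm : IsSmooth 𝔄.lvl X.X₂) (n : ℕ) :
    Function.Exact (ccHMap 𝔄 X.f n).hom (ccHMap 𝔄 X.g n).hom :=
  cx_exact₂ (ccShortExact 𝔄 hX hsm) n

/-- Exactness of `H_cⁿ(X₂) ⟶ H_cⁿ(X₃) ⟶ H_cⁿ⁺¹(X₁)`. -/
theorem ccH_exact₃ (hX : X.ShortExact) (hsm : IsSmooth 𝔄.lvl X.X₂) (n : ℕ) :
    Function.Exact (ccHMap 𝔄 X.g n).hom (ccDelta 𝔄 hX hsm n).hom :=
  cx_exact₃ (ccShortExact 𝔄 hX hsm) n

/-- Exactness of `H_cⁿ(X₃) ⟶ H_cⁿ⁺¹(X₁) ⟶ H_cⁿ⁺¹(X₂)`. -/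
theorem ccH_exact₁ (hX : X.ShortExact) (hsm : IsSmooth 𝔄.lvl X.X₂) (n : ℕ) :
    Function.Exact (ccDelta 𝔄 hX hsm n).hom (ccHMap 𝔄 X.f (n + 1)).hom :=
  cx_exact₁ (ccShortExact 𝔄 hX hsm) n

/-- `δ_c ∘ H_cⁿ(g) = 0`. -/
theorem ccDelta_comp_g (hX : X.ShortExact) (hsm : IsSmooth 𝔄.lvl X.X₂) (n : ℕ)
    (z : ccH 𝔄 X.X₂ n) : (ccDelta 𝔄 hX hsm n).hom ((ccHMap 𝔄 X.g n).hom z) = 0 :=
  (ccH_exact₃ 𝔄 hX hsm n).apply_apply_eq_zero z

/-- `H_cⁿ⁺¹(f) ∘ δ_c = 0`. -/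
theorem ccHMap_f_comp_delta (hX : X.ShortExact) (hsm : IsSmooth 𝔄.lvl X.X₂) (n : ℕ)
    (z : ccH 𝔄 X.X₃ n) : (ccHMap 𝔄 X.f (n + 1)).hom ((ccDelta 𝔄 hX hsm n).hom z) = 0 :=
  (ccH_exact₁ 𝔄 hX hsm n).apply_apply_eq_zero z

/-- `H_c⁰(f)` is injective. -/
theorem ccH_zero_injective (hX : X.ShortExact) (hsm : IsSmooth 𝔄.lvl X.X₂) :
    Function.Injective (ccHMap 𝔄 X.f 0).hom :=
  cx_zero_injective (ccShortExact 𝔄 hX hsm)

/-- Naturality of the compact-support connecting map in the short exact sequence. -/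
theorem ccDelta_naturality {Y : ShortComplex (Rep.{u} k G)} (hX : X.ShortExact)
    (hsmX : IsSmooth 𝔄.lvl X.X₂) (hY : Y.ShortExact) (hsmY : IsSmooth 𝔄.lvl Y.X₂) (F : X ⟶ Y)
    (n : ℕ) :
    ccDelta 𝔄 hX hsmX n ≫ ccHMap 𝔄 F.τ₁ (n + 1) = ccHMap 𝔄 F.τ₃ n ≫ ccDelta 𝔄 hY hsmY n :=
  cxDelta_naturality (ccShortExact 𝔄 hX hsmX) (ccShortExact 𝔄 hY hsmY)
    ((Fermat.Agent.H53.ccFunctor 𝔄).mapShortComplex.map F) n

/-- Naturality of the compact-support connecting map, elementwise. -/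
theorem ccDelta_naturality_apply {Y : ShortComplex (Rep.{u} k G)} (hX : X.ShortExact)
    (hsmX : IsSmooth 𝔄.lvl X.X₂) (hY : Y.ShortExact) (hsmY : IsSmooth 𝔄.lvl Y.X₂) (F : X ⟶ Y)
    (n : ℕ) (z : ccH 𝔄 X.X₃ n) :
    (ccHMap 𝔄 F.τ₁ (n + 1)).hom ((ccDelta 𝔄 hX hsmX n).hom z)
      = (ccDelta 𝔄 hY hsmY n).hom ((ccHMap 𝔄 F.τ₃ n).hom z) :=
  cxDelta_naturality_apply (ccShortExact 𝔄 hX hsmX) (ccShortExact 𝔄 hY hsmY)
    ((Fermat.Agent.H53.ccFunctor 𝔄).mapShortComplex.map F) n z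

/-! ### Compatibility with the projection to level cohomology -/

/-- The projection `C_c(M) ⟶ C(G, M)`. -/
abbrev ccPi (M : Rep.{u} k G) : ccComplex 𝔄 M ⟶ lvlComplex 𝔄.lvl M :=
  Fermat.Agent.H34.conePi (resTot 𝔄 M)

/-- The projection is natural in the coefficients. -/
theorem ccMap_comp_ccPi {A B : Rep.{u} k G} (φ : A ⟶ B) :
    Fermat.Agent.H53.ccMap 𝔄 φ ≫ ccPi 𝔄 B = ccPi 𝔄 A ≫ lvlMap 𝔄.lvl φ :=
  Fermat.Agent.H34.coneShiftMap_conePi (lvlMap 𝔄.lvl φ) (Fermat.Agent.H53.locMap 𝔄 φ)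
    (Fermat.Agent.H53.resTot_naturality 𝔄 φ)

/-- The projection as a morphism of short complexes of complexes. -/
def ccPiSC (Z : ShortComplex (Rep.{u} k G)) :
    Z.map (Fermat.Agent.H53.ccFunctor 𝔄) ⟶ Z.map (lvlFunctor 𝔄.lvl) where
  τ₁ := ccPi 𝔄 Z.X₁
  τ₂ := ccPi 𝔄 Z.X₂
  τ₃ := ccPi 𝔄 Z.X₃
  comm₁₂ := (ccMap_comp_ccPi 𝔄 Z.f).symm
  comm₂₃ := (ccMap_comp_ccPi 𝔄 Z.g).symm

/-- The connecting maps of compact-support and level cohomology are compatible under the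
projection. -/
theorem ccDelta_ccPi (hX : X.ShortExact) (hsm : IsSmooth 𝔄.lvl X.X₂) (n : ℕ) :
    ccDelta 𝔄 hX hsm n ≫ HomologicalComplex.homologyMap (ccPi 𝔄 X.X₁) (n + 1)
      = HomologicalComplex.homologyMap (ccPi 𝔄 X.X₃) n ≫ lvlDelta 𝔄.lvl hX hsm n :=
  cxDelta_naturality (ccShortExact 𝔄 hX hsm) (lvlShortExact 𝔄.lvl hX hsm) (ccPiSC 𝔄 X) n

/-- Compatibility under the projection, elementwise. -/
theorem ccDelta_ccPi_apply (hX : X.ShortExact) (hsm : IsSmooth 𝔄.lvl X.X₂) (n : ℕ)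
    (z : ccH 𝔄 X.X₃ n) :
    (HomologicalComplex.homologyMap (ccPi 𝔄 X.X₁) (n + 1)).hom ((ccDelta 𝔄 hX hsm n).hom z)
      = (lvlDelta 𝔄.lvl hX hsm n).hom
          ((HomologicalComplex.homologyMap (ccPi 𝔄 X.X₃) n).hom z) :=
  cxDelta_naturality_apply (ccShortExact 𝔄 hX hsm) (lvlShortExact 𝔄.lvl hX hsm)
    (ccPiSC 𝔄 X) n z

end cc

end

end Fermat.Agent.H99.Cft
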